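import Mathlib
import Fermat.Agent.LT.T7.H87.BaseAQ801Spec
import Fermat.Agent.LT.T7.H445.StepMSpec

/-!
# Row LT, tower T7, node T7.L2Q.1.H2a.A.0b.M `BQ87.StepMDatQC87` (registry row 3188; the step
# `M_{w,d}` ON THE DATA, quadratic step): CUT by helper640 -- Spec

OFF-MAIN.  Definitions and frozen Props only (the proved top is `StepMDatTop.lean`).  No hole,
nothing assumed.  ADDITIVE (new names only, suffix `640`, namespace
`Fermat.Agent.LT.T7.SM640`).  Vocabulary, byte-identical copies: the cut of helper87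
(`T7/H87/BaseAQSpec.lean` 6471b15c, `BaseAQ801Spec.lean` 433c99f6: `DatQ87`, `IsDatQ87`,
`StepMDatQC87`), the cubic step of helper445 (`T7/H445/StepMSpec.lean` 95c0ff93: `sphMeanC445`,
`IsSphC445`), stations T3.18 / T3.18R, `T6/SpecArch.lean` (`sphTransR`, `sphC`).

    stepMDatQC_of640 : AbelUniqC640 → SegBumpC640 → SphLocTestC640 → SphLocAbelC640
        → SphLocActsC640 → SphTransSegC640 → StepTelC640 F → StepFtC640 F → StepUpOpC640 F
        → DnOpFormC640 F → T3.R.AbelRealC → H445.SphExLocC445 → BQ87.StepMDatQC87 F  (VERBATIM)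

## The construction: EXPLICIT new data `stepDat640 D d y F0' F1'`

Frames, `μc`, `κc`, the Satake coefficients and ALL finite components are those of `D`.
* upstairs `Φ' i w = sphMeanC445 y (Φ i w)` (`y` the sphere family of radius `d` of `GL₂(ℂ)`),
  `β'' i w = segUp640 d (β' i w)`, `segUp640 d β (X) = (4π / sinh d) ∫_{-d/2}^{d/2} β(X₁ + a, X₂ - a) da`
  (ARCHIMEDES: the `N`-integral of the sphere mean; proved by helper698 `sphAbelUp698`, claimed by
  helper132);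
* downstairs `β_new i v = segDn640 d (β i v)`,
  `segDn640 d β (X) = (2π / sinh d) ∫_{-d}^{d} β(X₁ + b, X₂ - b) db`
  (`halfQ801 c (segUp640 d β') = segDn640 d (halfQ801 c β')`: substitution `b = 2a`), and
  `F0' i`, `F1' i` of weight `0`, `-1` with `N`-integral `β_new i` (RE-SYNTHESIS,
  `T3.R.AbelRealC`, closed; chosen in the top).

## The leaves

LOCAL (no number field):
* `AbelUniqC640` [S, Mathlib]: the `N`-integral determines `β` (complex and real form).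
* `SegBumpC640` [M, Mathlib]: `segUp640`, `segDn640` preserve symmetric bumps; total mass of
  `segUp640 d β` is `4π (d / sinh d) ∫ β`; the relation with `halfQ801`.
* `SphLocTestC640` [M-L, `GL₂(ℂ)`]: the local sphere mean preserves `IsCplxTest` + `IsCplxSmooth`
  (and then `T6.IsArchTestC`).  Assets: the proofs of `H445.SphArchC445`, `H445.SphTestC445`.
* `SphLocAbelC640` [L, `GL₂(ℂ)`]: ARCHIMEDES.  Asset: helper698 `T7/H698/SphAbel.lean`.
* `SphLocActsC640` [L, `GL₂(ℂ)`]: `ActsBy μc Φ C → ActsBy μc (sphMeanC445 y Φ) (4π (d/sinh d) C)`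
  (Fubini, right invariance of the Haar measure of `GL₂(ℂ)`, `IsLocSph0.mean`; the computation
  of the falsity check (a) of `H445/StepMSpec.lean`).
* `SphTransSegC640` [XL, `GL₂(ℝ)`]: THE SPECTRAL STEP downstairs: test functions `F`, `F'` of
  weight `n ∈ {0, -1}` with `N`-integrals `β`, `segDn640 d β`:
  `sphTransR μr n F' s = 4π sphC (2s) (cosh d) · sphTransR μr n F s` for all `s`.

GLOBAL (for the data):
* `StepTelC640 F` [L]: the coordinates of the new data telescope (upstairs and downstairs).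
* `StepFtC640 F` [M-L]: the Fourier transform of the new coordinates upstairs is
  `4π (d / sinh d)` times the old one (one infinite place), in particular `ft_ne` is preserved.
* `StepUpOpC640 F` [L]: `R(D'.up) χ = C.m w d · R(D.up) χ` on `IsEigFn` (the cubic leaves
  `H445.SphPureC445` / `SphOpC445` / `SphExC445` for ONE field, `BQ87.UpGoodQC87`).
* `DnOpFormC640 F` [L]: THE PRODUCT FORM of the operator of the sums downstairs (station
  T3.18R, `T3.R.ROpRC` + `T3.R.LocOfMeanRC`, closed; helper830 `actsOnR_sph830`): there are a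
  Haar measure `μr` of `GL₂(ℝ)` and functions `Ξ i` such that for EVERY family `Fr` of test
  functions of weight `t.wt`: `R(∑ᵢ pureFnR (f₀ i) (Fr i)) χ = ∑ᵢ sphTransR μr t.wt (Fr i) s · Ξ i`.

## FALSITY CHECKS (helper640)

(a) Constants.  Upstairs the character of parameter `ν` on the torus is `e^{ν (X₁ - X₂)}`:
`(4π / sinh d) ∫_{-d/2}^{d/2} e^{2 ν a} da = 4π sinh(ν d) / (ν sinh d) = 4π sphC ν (cosh d)`,
the eigenvalue of the sphere mean of radius `d` on the class of parameter `ν` (`ν = 0`: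
`4π d / sinh d`, `IsLocSph0.mean`).  Downstairs (`halfQ801`: `x ↦ x/2`, parameter `s ↔ ν = 2s`):
`(2π / sinh d) ∫_{-d}^{d} e^{2 s b} db = 4π sinh(2 s d) / (2 s sinh d) = 4π sphC (2s) (cosh d)`
`= C.m w d` (`IsBCDataQ`, second clause).  (b) `SphTransSegC640` is TRUE by the closed stations:
take `Φ` with `N`-integral `β'`, `halfQ801 c β' = β` (`AS.AbelCplxSmoothC`), then
`sphMeanC445 y Φ` has the `N`-integral `segUp640 d β'` (`SphLocAbelC640`), the Abel relations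
`H626.IsAbelRel626 c` hold for `(Φ, F, ·)` and `(sphMeanC445 y Φ, F', ·)`
(helper830 `isAbelRel_iff830`), `H626.SpecRelC626` (closed, helper830) gives
`sphTransR F s = c_n sphTransC Φ (2s)` and the same for `F'`, and
`sphTransC (sphMeanC445 y Φ) ν = 4π sphC ν (cosh d) sphTransC Φ ν` (the mean value property of
`sphC ν ∘ rhoC`: hyperbolic law of cosines, `∫_{|r-d|}^{r+d} sinh(ν δ) dδ`).  The second
function of weight `±1` / `0` needed by `SpecRelC626` exists by `T3.R.AbelRealC`.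
(c) `DnOpFormC640`: if `cd.b v = 0` for some `v ∈ P` then `χ = 0` and `Ξ = 0` works; the same
`Ξ` for ALL families `Fr` (it is `κ₁ ∏_{v ∈ P} laurent (A i v) (z₁ v) (z₂ v) · χ`).
(d) `StepTelC640`: `c₀ = ((e_v, 0)_v, (log |α|_w, 0)_w)`, `e_v > 0`, `P ≠ ∅`, the `A i v` have
finite support: for fixed `Δ` only finitely many `j` contribute, uniformly in the variable of
the segment, so sum and integral commute.  ONE infinite place (`IsImagQuad F`; `ℚ`).
(e) The new data do not depend on `w`; `F` has one infinite place.  `d > 0` everywhere.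
-/

set_option autoImplicit false

open AutomorphicForm IsDedekindDomain NumberField MeasureTheory
open scoped ComplexConjugate

noncomputable section

namespace Fermat.Agent.LT.T7.SM640

open Fermat.Agent.LT Fermat.Agent.LT.H556 Fermat.Agent.LT.H556.A0 Fermat.Agent.LT.T7
  Fermat.Agent.LT.T7.H305 Fermat.Agent.LT.T7.L2Q Fermat.Agent.LT.T7.H893
  Fermat.Agent.LT.T7.H962 Fermat.Agent.LT.T7.H732 Fermat.Agent.LT.T7.MQ298
  Fermat.Agent.LT.T7.CQ801 Fermat.Agent.LT.T7.PQ484 Fermat.Agent.LT.T7.BQ87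

attribute [local instance] Fermat.Agent.LT.T5.instMeasurableSpaceG

/-! ## 1. Vocabulary -/

/-- The segment average upstairs: `(4π / sinh d) ∫_{-d/2}^{d/2} β(X₁ + a, X₂ - a) da`. -/
def segUp640 (d : ℝ) (β : ℝ × ℝ → ℂ) : ℝ × ℝ → ℂ :=
  fun X => ((4 * Real.pi / Real.sinh d : ℝ) : ℂ) *
    ∫ a in (-(d / 2))..(d / 2), β (X.1 + a, X.2 - a)

/-- The segment average downstairs: `(2π / sinh d) ∫_{-d}^{d} β(X₁ + b, X₂ - b) db`. -/
def segDn640 (d : ℝ) (β : ℝ × ℝ → ℂ) : ℝ × ℝ → ℂ :=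
  fun X => ((2 * Real.pi / Real.sinh d : ℝ) : ℂ) *
    ∫ b in (-d)..d, β (X.1 + b, X.2 - b)

/-- **THE NEW DATA**: the frames, the measure, the constants and the finite components of `D`;
at infinity the sphere means upstairs, the segment averages of the coordinates, and the GIVEN
real components `F0'`, `F1'`. -/
def stepDat640 {F : Type} [Field F] [NumberField F] (D : DatQ87 F) (d : ℝ)
    (y : ℝ → ℝ → GL (Fin 2) ℂ) (F0' F1' : Fin D.N → GL (Fin 2) ℝ → ℂ) : DatQ87 F where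
  N := D.N
  P' := D.P'
  e' := D.e'
  a₀' := D.a₀'
  α' := D.α'
  P := D.P
  e := D.e
  a₀ := D.a₀
  α := D.α
  μc := D.μc
  κc := D.κc
  A' := D.A'
  β' := fun i w => segUp640 d (D.β' i w)
  φ₀ := D.φ₀
  Φ := fun i w => H445.sphMeanC445 y (D.Φ i w)
  A := D.A
  β := fun i v => segDn640 d (D.β i v)
  f₀ := D.f₀
  F0 := F0'
  F1 := F1'

/-! ## 2. The local leaves -/

/-- **LEAF SM.0 = ABEL-UNIQ [S, Mathlib].**  The `N`-integral determines `β`: evaluate at
`c₁ = e^{X₁}`, `c₂ = e^{X₂}`. -/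
def AbelUniqC640 : Prop :=
  (∀ (Φ : GL (Fin 2) ℂ → ℂ) (β₁ β₂ : ℝ × ℝ → ℂ),
      T3.AS.HasAbelN Φ β₁ → T3.AS.HasAbelN Φ β₂ → β₁ = β₂) ∧
    ∀ (Fr : GL (Fin 2) ℝ → ℂ) (β₁ β₂ : ℝ × ℝ → ℂ),
      T3.R.HasAbelNR Fr β₁ → T3.R.HasAbelNR Fr β₂ → β₁ = β₂

/-- **LEAF SM.1 = SEG-BUMP [M, Mathlib].**  The segment averages of a symmetric bump are
symmetric bumps; the total mass upstairs; the relation with `halfQ801`. -/
def SegBumpC640 : Prop :=
  ∀ d : ℝ, 0 < d → ∀ β : ℝ × ℝ → ℂ, T3.AS.IsSymBump β →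
    T3.AS.IsSymBump (segUp640 d β) ∧ T3.AS.IsSymBump (segDn640 d β) ∧
      (∫ x : ℝ × ℝ, segUp640 d β x)
        = ((4 * Real.pi * (d / Real.sinh d) : ℝ) : ℂ) * ∫ x : ℝ × ℝ, β x ∧
      ∀ c : ℂ, halfQ801 c (segUp640 d β) = segDn640 d (halfQ801 c β)

/-- **LEAF SM.2 = SPH-LOC-TEST [M-L, `GL₂(ℂ)`].**  The local sphere mean of a smooth
bi-`U(2)`-invariant test function is one (both vocabularies). -/
def SphLocTestC640 : Prop :=
  ∀ (d : ℝ) (y : ℝ → ℝ → GL (Fin 2) ℂ), H445.IsSphC445 d y →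
    ∀ Φ : GL (Fin 2) ℂ → ℂ, T3.AS.IsCplxTest Φ → T3.AS.IsCplxSmooth Φ →
      T3.AS.IsCplxTest (H445.sphMeanC445 y Φ) ∧ T3.AS.IsCplxSmooth (H445.sphMeanC445 y Φ) ∧
        T6.IsArchTestC (H445.sphMeanC445 y Φ)

/-- **LEAF SM.3 = SPH-LOC-ABEL [L, `GL₂(ℂ)`] (ARCHIMEDES).**  The `N`-integral of the local
sphere mean is the segment average of the `N`-integral. -/
def SphLocAbelC640 : Prop :=
  ∀ d : ℝ, 0 < d → ∀ y : ℝ → ℝ → GL (Fin 2) ℂ, H445.IsSphC445 d y →
    ∀ (Φ : GL (Fin 2) ℂ → ℂ) (β : ℝ × ℝ → ℂ), T3.AS.IsCplxTest Φ → T3.AS.IsSymBump β →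
      T3.AS.HasAbelN Φ β → T3.AS.HasAbelN (H445.sphMeanC445 y Φ) (segUp640 d β)

/-- **LEAF SM.4 = SPH-LOC-ACTS [L, `GL₂(ℂ)`].**  On the functions of parameter `0` the local
sphere mean of radius `d` multiplies the scalar by `4π d / sinh d`. -/
def SphLocActsC640 : Prop :=
  ∀ μc : @Measure (GL (Fin 2) ℂ) (borel _), @Measure.IsHaarMeasure _ _ _ (borel _) μc →
    ∀ d : ℝ, 0 < d → ∀ y : ℝ → ℝ → GL (Fin 2) ℂ, H445.IsSphC445 d y →
    ∀ (Φ : GL (Fin 2) ℂ → ℂ) (C : ℂ), T3.AS.IsCplxTest Φ →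
      @T3.AS.ActsBy (borel _) μc Φ C →
      @T3.AS.ActsBy (borel _) μc (H445.sphMeanC445 y Φ)
        (((4 * Real.pi * (d / Real.sinh d) : ℝ) : ℂ) * C)

/-- **LEAF SM.5 = SPH-TRANS-SEG [XL, `GL₂(ℝ)`] (THE SPECTRAL STEP).**  For test functions `Fr`,
`Fr'` of weight `n ∈ {0, -1}` on `GL₂(ℝ)` whose `N`-integrals are `β` and `segDn640 d β`:
`sphTransR μr n Fr' s = 4π sphC (2s) (cosh d) · sphTransR μr n Fr s`.  Header, check (b). -/
def SphTransSegC640 : Prop :=
  ∀ μr : @Measure (GL (Fin 2) ℝ) (borel _), @Measure.IsHaarMeasure _ _ _ (borel _) μr →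
    ∀ n : ℤ, n = 0 ∨ n = -1 → ∀ d : ℝ, 0 < d →
    ∀ (Fr Fr' : GL (Fin 2) ℝ → ℂ) (β : ℝ × ℝ → ℂ), T3.AS.IsSymBump β →
      T6.IsArchTestR n Fr → T6.IsArchTestR n Fr' →
      T3.R.HasAbelNR Fr β → T3.R.HasAbelNR Fr' (segDn640 d β) →
      ∀ s : ℂ, T6.sphTransR μr n Fr' s
        = ((4 * Real.pi : ℝ) : ℂ) * T6.sphC (2 * s) (Real.cosh d) * T6.sphTransR μr n Fr s

/-! ## 3. The global leaves -/

section Global

variable (F : Type) [Field F] [NumberField F]

/-- **LEAF SM.6 = STEP-TEL [L].**  The coordinates of the new data telescope, upstairs and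
downstairs.  Header, check (d). -/
def StepTelC640 : Prop :=
  IsImagQuad F →
    ∀ (Φe : HeckeEigensystem F ℂ) (B : L2QBase962 F) (𝔫 : Ideal (𝓞 ℚ)) (c : ℂ)
      (T₀ : Finset (HeightOneSpectrum (𝓞 ℚ)))
      (n : HeightOneSpectrum (𝓞 F) → ℕ) (m : HeightOneSpectrum (𝓞 ℚ) → ℕ)
      (D : DatQ87 F), IsDatQ87 Φe B 𝔫 c T₀ n m D →
    ∀ d : ℝ, 0 < d → ∀ (y : ℝ → ℝ → GL (Fin 2) ℂ) (F0' F1' : Fin D.N → GL (Fin 2) ℝ → ℂ),
      (∀ Δ : T3.M.CoordM F D.P',
        HasSum (fun j : ℤ => (stepDat640 D d y F0' F1').crdUp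
          (Δ + j • T3.M.coordTorM F D.P' D.e' D.α')) 0) ∧
      ∀ Δ : T3.M.CoordM ℚ D.P,
        HasSum (fun j : ℤ => (stepDat640 D d y F0' F1').crdDn
          (Δ + j • T3.M.coordTorM ℚ D.P D.e D.α)) 0

/-- **LEAF SM.7 = STEP-FT [M-L].**  The Fourier transform of the new coordinates upstairs:
`4π (d / sinh d)` times the old one (`T3.M.FtPureC`, `SegBumpC640`; ONE infinite place). -/
def StepFtC640 : Prop :=
  IsImagQuad F →
    ∀ (Φe : HeckeEigensystem F ℂ) (B : L2QBase962 F) (𝔫 : Ideal (𝓞 ℚ)) (c : ℂ)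
      (T₀ : Finset (HeightOneSpectrum (𝓞 ℚ)))
      (n : HeightOneSpectrum (𝓞 F) → ℕ) (m : HeightOneSpectrum (𝓞 ℚ) → ℕ)
      (D : DatQ87 F), IsDatQ87 Φe B 𝔫 c T₀ n m D →
    ∀ d : ℝ, 0 < d → ∀ (y : ℝ → ℝ → GL (Fin 2) ℂ) (F0' F1' : Fin D.N → GL (Fin 2) ℝ → ℂ)
      (z₁ z₂ : HeightOneSpectrum (𝓞 F) → ℂ),
      T3.M.ftCoordM F D.P' (stepDat640 D d y F0' F1').crdUp z₁ z₂
        = ((4 * Real.pi * (d / Real.sinh d) : ℝ) : ℂ) * T3.M.ftCoordM F D.P' D.crdUp z₁ z₂

/-- **LEAF SM.8 = STEP-UP-OP [L].**  In the context of the node: the operator upstairs of the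
new data is `C.m w d` times the operator of `D` on the eigenfunctions.
Proof.  `F` is totally complex with ONE infinite place `w`.  `Y` = the sphere family at `w`
(`H445.SphExC445 F`): `(stepDat640 …).up 𝔑 = H445.sphMean445 Y (D.up 𝔑)` (the sphere mean of a
pure tensor `T3.M.pureFnM` is the pure tensor with the local sphere mean at `w`: proof of
`H445.SphPureC445`; linearity: the integrands are continuous), `D.up 𝔑` is a test function
(`BQ87.UpGoodQC87`, hypothesis here), `H445.SphOpC445 F`. -/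
def StepUpOpC640 : Prop :=
  HasSqrtNegThree F → IsImagQuad F →
    ∀ Φ : HeckeEigensystem F ℂ, A0.IsCuspAdelicSph0 F Φ → ConstOnFibresQ Φ → ekMulti F Φ →
      ∀ B : L2Q.H60.L2QBase F, L2Q.H60.IsL2QBase Φ B → L2Q.H60.IsRamQ60 B →
      ∀ 𝔫 : Ideal (𝓞 ℚ), CQ57.IsLevQ57 (toBase962_732 B) 𝔫 →
      ∀ (T₀ : Finset (HeightOneSpectrum (𝓞 ℚ)))
        (n n₀ : HeightOneSpectrum (𝓞 F) → ℕ) (m : HeightOneSpectrum (𝓞 ℚ) → ℕ),
        CQ57.IsLevFnQ57 (toBase962_732 B) 𝔫 T₀ n n₀ m →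
        ∀ c : ℂ, c ≠ 0 →
        ∀ D : DatQ87 F, IsDatQ87 Φ (toBase962_732 B) 𝔫 c T₀ n m D →
        T5.IsTestFn (upI (K' := F) 𝔫) T5.trivType (D.up (upI (K' := F) 𝔫)) →
        ∀ (w : InfinitePlace F) (d : ℝ), 0 < d →
        ∀ (y : ℝ → ℝ → GL (Fin 2) ℂ), H445.IsSphC445 d y →
        ∀ (F0' F1' : Fin D.N → GL (Fin 2) ℝ → ℂ) (χ : G F → ℂ) (C : EigData F),
          IsEigFn (toBase962_732 B).𝔑₀ (toBase962_732 B).R'.r 2 (toBase962_732 B).o χ C →
          ∀ x : G F,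
            T5.Rconv (toBase962_732 B).R'.μ
                ((stepDat640 D d y F0' F1').up (upI (K' := F) 𝔫)) χ x
              = C.m w d * T5.Rconv (toBase962_732 B).R'.μ (D.up (upI (K' := F) 𝔫)) χ x

/-- **LEAF SM.9 = DN-OP-FORM [L] (station T3.18R).**  In the context of the node, for data `D`,
a type `t`, an eigenfunction `χ` of type `t` with eigen-data `cd` of parameter `s` at infinity:
there are a Haar measure `μr` of `GL₂(ℝ)` and functions `Ξ i` such that for EVERY family `Fr`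
of test functions of weight `t.wt` on `GL₂(ℝ)` the operator of the sum of the pure tensors
`T3.R.pureFnR ℚ _ 𝔫 D.P (D.f₀ i) (fun _ => Fr i)` on `χ` is `∑ᵢ sphTransR μr t.wt (Fr i) s · Ξ i`.
Header, check (c). -/
def DnOpFormC640 : Prop :=
  HasSqrtNegThree F → IsImagQuad F →
    ∀ Φ : HeckeEigensystem F ℂ, A0.IsCuspAdelicSph0 F Φ → ConstOnFibresQ Φ → ekMulti F Φ →
      ∀ B : L2Q.H60.L2QBase F, L2Q.H60.IsL2QBase Φ B → L2Q.H60.IsRamQ60 B →
      ∀ 𝔫 : Ideal (𝓞 ℚ), CQ57.IsLevQ57 (toBase962_732 B) 𝔫 →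
      ∀ (T₀ : Finset (HeightOneSpectrum (𝓞 ℚ)))
        (n n₀ : HeightOneSpectrum (𝓞 F) → ℕ) (m : HeightOneSpectrum (𝓞 ℚ) → ℕ),
        CQ57.IsLevFnQ57 (toBase962_732 B) 𝔫 T₀ n n₀ m →
        ∀ c : ℂ, c ≠ 0 →
        ∀ D : DatQ87 F, IsDatQ87 Φ (toBase962_732 B) 𝔫 c T₀ n m D →
        ∀ (t : QWt) (χ : G ℚ → ℂ) (cd : EigData ℚ) (s : ℂ),
          IsEigFnQ t 𝔫 (toBase962_732 B).R.r (toBase962_732 B).u χ cd →
          (∀ (v : InfinitePlace ℚ) (r : ℝ), 0 < r →
            cd.m v r = ((2 * Real.pi : ℝ) : ℂ) * T6.sphRad t.wt s (Real.cosh r)) →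
          ∃ (μr : @Measure (GL (Fin 2) ℝ) (borel _)) (Ξ : Fin D.N → G ℚ → ℂ),
            @Measure.IsHaarMeasure _ _ _ (borel _) μr ∧
            ∀ Fr : Fin D.N → GL (Fin 2) ℝ → ℂ, (∀ i, T6.IsArchTestR t.wt (Fr i)) →
              ∀ x : G ℚ,
                T5.Rconv (toBase962_732 B).R.μ
                    (fun g => ∑ i : Fin D.N,
                      T3.R.pureFnR ℚ ratReal87 𝔫 D.P (D.f₀ i) (fun _ => Fr i) g) χ x
                  = ∑ i : Fin D.N, T6.sphTransR μr t.wt (Fr i) s * Ξ i x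

end Global

/-! ## Appendix: the equation lemmas of the definitions of this file are realised HERE -/

theorem eqns_realised_stepMDat640 : True := by
  have _a1 := @segUp640.eq_1
  have _a2 := @segUp640.eq_def
  have _a3 := @segUp640.eq_unfold
  have _b1 := @segDn640.eq_1
  have _b2 := @segDn640.eq_def
  have _b3 := @segDn640.eq_unfold
  have _c1 := @stepDat640.eq_1
  have _c2 := @stepDat640.eq_def
  have _c3 := @stepDat640.eq_unfold
  have _d1 := @AbelUniqC640.eq_1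
  have _d2 := @AbelUniqC640.eq_def
  have _d3 := @AbelUniqC640.eq_unfold
  have _e1 := @SegBumpC640.eq_1
  have _e2 := @SegBumpC640.eq_def
  have _e3 := @SegBumpC640.eq_unfold
  have _f1 := @SphLocTestC640.eq_1
  have _f2 := @SphLocTestC640.eq_def
  have _f3 := @SphLocTestC640.eq_unfold
  have _g1 := @SphLocAbelC640.eq_1
  have _g2 := @SphLocAbelC640.eq_def
  have _g3 := @SphLocAbelC640.eq_unfold
  have _h1 := @SphLocActsC640.eq_1
  have _h2 := @SphLocActsC640.eq_def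
  have _h3 := @SphLocActsC640.eq_unfold
  have _i1 := @SphTransSegC640.eq_1
  have _i2 := @SphTransSegC640.eq_def
  have _i3 := @SphTransSegC640.eq_unfold
  have _j1 := @StepTelC640.eq_1
  have _j2 := @StepTelC640.eq_def
  have _j3 := @StepTelC640.eq_unfold
  have _k1 := @StepFtC640.eq_1
  have _k2 := @StepFtC640.eq_def
  have _k3 := @StepFtC640.eq_unfold
  have _l1 := @StepUpOpC640.eq_1
  have _l2 := @StepUpOpC640.eq_def
  have _l3 := @StepUpOpC640.eq_unfold
  have _m1 := @DnOpFormC640.eq_1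
  have _m2 := @DnOpFormC640.eq_def
  have _m3 := @DnOpFormC640.eq_unfold
  trivial

end Fermat.Agent.LT.T7.SM640

end
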