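import Mathlib
import Fermat.Agent.LT.T7.SM640.StepMDatSpec
import Fermat.Agent.LT.T7.H698.SphDat
import Fermat.Agent.LT.T7.H842.SpecStepR

/-!
# Row LT, tower T7, node `BQ87.StepMDatQC87` (registry row 3188), cut of helper640
# (`SM640/StepMDatSpec.lean` 3bc5afa1): THE SIX LOCAL LEAVES, PROVED (helper640)

OFF-MAIN.  Complete proofs, nothing assumed.  ADDITIVE (new names only, suffix `640`, namespace
`Fermat.Agent.LT.T7.SM640`).

* `abelUniqC640 : AbelUniqC640` (Mathlib: evaluate at `c₁ = e^{X₁}`, `c₂ = e^{X₂}`);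
* `segBumpC640 : SegBumpC640` (helper698 `isSymBump_abelMean698`, `integral_abelMean698`,
  `abelMean_eq_half698`; helper842 `segAvg_half842`);
* `sphLocTestC640 : SphLocTestC640` (helper698 `isCplxTest_sphMean698`,
  `isCplxSmooth_sphMean698`);
* `sphLocAbelC640 : SphLocAbelC640` (helper698 `hasAbelN_sphMean698`);
* `sphLocActsC640 : SphLocActsC640` (helper698 `actsBy_sphMean698`);
* `sphTransSegC640 : SphTransSegC640` (helper842 `specStepR842`, on the closed
  `H830.hcTransRC830`).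
-/

set_option autoImplicit false
set_option linter.style.haveILetI false
set_option linter.unusedVariables false

open MeasureTheory
open scoped ContDiff

noncomputable section

namespace Fermat.Agent.LT.T7.SM640

open Fermat.Agent.LT Fermat.Agent.LT.T7

/-! ## 0. The segment averages in the vocabulary of the assets -/

/-- `segUp640 d β` is the Abel transform of the sphere mean of helper698 (`d ≠ 0`). -/
theorem segUp_eq_abelMean640 {d : ℝ} (hd : d ≠ 0) {β : ℝ × ℝ → ℂ} (hβ : Continuous β) :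
    segUp640 d β = H698.abelMean698 d β := by
  funext X
  exact (H698.abelMean_eq_half698 hd hβ X).symm

/-- `segDn640 d β` is the segment average of helper842. -/
theorem segDn_eq_segAvg640 (d : ℝ) (β : ℝ × ℝ → ℂ) :
    segDn640 d β = H842S.segAvg842 d β := rfl

/-- Constant multiples of symmetric bumps are symmetric bumps. -/
theorem isSymBump_const_mul640 (k : ℂ) {β : ℝ × ℝ → ℂ} (hβ : T3.AS.IsSymBump β) :
    T3.AS.IsSymBump (fun X => k * β X) := by
  refine ⟨contDiff_const.mul hβ.1, ?_, fun x y => ?_⟩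
  · exact HasCompactSupport.mul_left (f := fun _ => k) hβ.2.1
  · show k * β (x, y) = k * β (y, x)
    rw [hβ.2.2 x y]

/-- `segDn640 d β` is a constant multiple of `abelMean698 (2 d) β`. -/
theorem segDn_eq_mul_abelMean640 {d : ℝ} (hd : 0 < d) {β : ℝ × ℝ → ℂ} (hβ : Continuous β) :
    segDn640 d β = fun X => (((2 * Real.pi / Real.sinh d : ℝ) : ℂ)
      * (((4 * Real.pi / Real.sinh (2 * d) : ℝ) : ℂ))⁻¹) * H698.abelMean698 (2 * d) β X := by
  funext X
  have h2d : (2 * d : ℝ) ≠ 0 := by positivity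
  have hs : Real.sinh (2 * d) ≠ 0 := fun h => h2d (Real.sinh_eq_zero.1 h)
  have hk : (((4 * Real.pi / Real.sinh (2 * d) : ℝ) : ℂ)) ≠ 0 := by
    apply Complex.ofReal_ne_zero.2
    exact div_ne_zero (by positivity) hs
  have e := H698.abelMean_eq_half698 h2d hβ X
  have e2 : (2 * d / 2 : ℝ) = d := by ring
  rw [e2] at e
  rw [e]
  show ((2 * Real.pi / Real.sinh d : ℝ) : ℂ) * (∫ b in (-d)..d, β (X.1 + b, X.2 - b)) = _
  generalize (∫ b in (-d)..d, β (X.1 + b, X.2 - b)) = I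
  generalize ((2 * Real.pi / Real.sinh d : ℝ) : ℂ) = a
  generalize (((4 * Real.pi / Real.sinh (2 * d) : ℝ) : ℂ)) = k at hk
  field_simp

/-! ## 1. `AbelUniqC640` -/

theorem abelUniqC640 : AbelUniqC640 := by
  refine ⟨?_, ?_⟩
  · intro Φ β₁ β₂ h1 h2
    funext X
    obtain ⟨x₁, x₂⟩ := X
    have hc1 : ((Real.exp x₁ : ℝ) : ℂ) ≠ 0 := Complex.ofReal_ne_zero.2 (Real.exp_pos x₁).ne'
    have hc2 : ((Real.exp x₂ : ℝ) : ℂ) ≠ 0 := Complex.ofReal_ne_zero.2 (Real.exp_pos x₂).ne'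
    have e1 := h1 (Units.mk0 _ hc1) (Units.mk0 _ hc2)
    have e2 := h2 (Units.mk0 _ hc1) (Units.mk0 _ hc2)
    rw [e1] at e2
    have n1 : ‖((Units.mk0 _ hc1 : ℂˣ) : ℂ)‖ = Real.exp x₁ := by
      rw [Units.val_mk0, Complex.norm_real, Real.norm_eq_abs, abs_of_pos (Real.exp_pos x₁)]
    have n2 : ‖((Units.mk0 _ hc2 : ℂˣ) : ℂ)‖ = Real.exp x₂ := by
      rw [Units.val_mk0, Complex.norm_real, Real.norm_eq_abs, abs_of_pos (Real.exp_pos x₂)]
    rw [n1, n2, Real.log_exp, Real.log_exp] at e2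
    have hne : ((Real.exp x₁ * Real.exp x₂ : ℝ) : ℂ) ≠ 0 :=
      Complex.ofReal_ne_zero.2 (mul_pos (Real.exp_pos x₁) (Real.exp_pos x₂)).ne'
    exact mul_left_cancel₀ hne e2
  · intro Fr β₁ β₂ h1 h2
    funext X
    obtain ⟨x₁, x₂⟩ := X
    have hc1 : (Real.exp x₁ : ℝ) ≠ 0 := (Real.exp_pos x₁).ne'
    have hc2 : (Real.exp x₂ : ℝ) ≠ 0 := (Real.exp_pos x₂).ne'
    have p1 : 0 < ((Units.mk0 _ hc1 : ℝˣ) : ℝ) := by
      rw [Units.val_mk0]; exact Real.exp_pos x₁
    have p2 : 0 < ((Units.mk0 _ hc2 : ℝˣ) : ℝ) := by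
      rw [Units.val_mk0]; exact Real.exp_pos x₂
    have e1 := h1 (Units.mk0 _ hc1) (Units.mk0 _ hc2) p1 p2
    have e2 := h2 (Units.mk0 _ hc1) (Units.mk0 _ hc2) p1 p2
    rw [e1] at e2
    rw [Units.val_mk0, Units.val_mk0, Real.log_exp, Real.log_exp] at e2
    have hne : ((Real.sqrt (Real.exp x₁ * Real.exp x₂) : ℝ) : ℂ) ≠ 0 :=
      Complex.ofReal_ne_zero.2
        (Real.sqrt_pos.2 (mul_pos (Real.exp_pos x₁) (Real.exp_pos x₂))).ne'
    exact mul_left_cancel₀ hne e2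

/-! ## 2. `SegBumpC640` -/

theorem segBumpC640 : SegBumpC640 := by
  intro d hd β hβ
  have hc : Continuous β := hβ.1.continuous
  refine ⟨?_, ?_, ?_, ?_⟩
  · rw [segUp_eq_abelMean640 hd.ne' hc]
    exact H698.isSymBump_abelMean698 d hβ
  · rw [segDn_eq_mul_abelMean640 hd hc]
    exact isSymBump_const_mul640 _ (H698.isSymBump_abelMean698 (2 * d) hβ)
  · rw [segUp_eq_abelMean640 hd.ne' hc]
    exact H698.integral_abelMean698 hd.ne' hc hβ.2.1
  · intro c
    funext X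
    exact (H842S.segAvg_half842 d c β X).symm

/-! ## 3. `SphLocTestC640`, `SphLocAbelC640`, `SphLocActsC640` -/

/-- A smooth bi-`U(2)`-invariant test function in the vocabulary of T3 is a test function in
the vocabulary of T6. -/
theorem isArchTestC_of_cplx640 {Φ : GL (Fin 2) ℂ → ℂ} (hΦ : T3.AS.IsCplxTest Φ)
    (hs : T3.AS.IsCplxSmooth Φ) : T6.IsArchTestC Φ := by
  refine ⟨hΦ.cont, hΦ.supp, ?_, ?_, ?_⟩
  · intro m h hh g
    have h2 : ∀ i j : Fin 2, ContDiff ℝ ∞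
        (fun t => (((g * h t : GL (Fin 2) ℂ)) : Matrix (Fin 2) (Fin 2) ℂ) i j) := by
      intro i j
      have e : (fun t => (((g * h t : GL (Fin 2) ℂ)) : Matrix (Fin 2) (Fin 2) ℂ) i j)
          = fun t => ∑ k : Fin 2, (g : Matrix (Fin 2) (Fin 2) ℂ) i k
            * ((h t : GL (Fin 2) ℂ) : Matrix (Fin 2) (Fin 2) ℂ) k j := by
        funext t
        simp only [Units.val_mul, Matrix.mul_apply]
      rw [e]
      exact ContDiff.sum fun k _ => contDiff_const.mul (hh k j)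
    exact hs m (fun t => g * h t) h2
  · intro k g hk
    have h := hΦ.bi_inv k 1 g hk (by
      show ((1 : GL (Fin 2) ℂ) : Matrix (Fin 2) (Fin 2) ℂ)
        * ((1 : GL (Fin 2) ℂ) : Matrix (Fin 2) (Fin 2) ℂ).conjTranspose = 1
      simp)
    rwa [mul_one] at h
  · intro k g hk
    have h := hΦ.bi_inv 1 k g (by
      show ((1 : GL (Fin 2) ℂ) : Matrix (Fin 2) (Fin 2) ℂ)
        * ((1 : GL (Fin 2) ℂ) : Matrix (Fin 2) (Fin 2) ℂ).conjTranspose = 1
      simp) hk
    rwa [one_mul] at h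

theorem sphLocTestC640 : SphLocTestC640 := by
  intro d y hy Φ hΦ hs
  have h1 := H698.isCplxTest_sphMean698 hy hΦ
  have h2 := H698.isCplxSmooth_sphMean698 hy hs
  exact ⟨h1, h2, isArchTestC_of_cplx640 h1 h2⟩

theorem sphLocAbelC640 : SphLocAbelC640 := by
  intro d hd y hy Φ β hΦ hβ hN
  rw [segUp_eq_abelMean640 hd.ne' hβ.1.continuous]
  exact H698.hasAbelN_sphMean698 hy hΦ.cont hΦ.supp (H698.isCplxTest_right_sa698 hΦ) hN

theorem sphLocActsC640 : SphLocActsC640 := by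
  intro μc hμ d hd y hy Φ C hΦ hA
  letI : MeasurableSpace (GL (Fin 2) ℂ) := borel _
  haveI : BorelSpace (GL (Fin 2) ℂ) := ⟨rfl⟩
  haveI : μc.IsHaarMeasure := hμ
  exact H698.actsBy_sphMean698 μc hd hy hΦ.cont hΦ.supp (H698.isCplxTest_right_sa698 hΦ) hA

/-! ## 4. `SphTransSegC640` -/

theorem sphTransSegC640 : SphTransSegC640 := by
  intro μr hμ n hn d hd Fr Fr' β hβ hF hF' hN hN' s
  have hw : T3.R.IsWt n := by
    rcases hn with h | h
    · exact Or.inl h
    · exact Or.inr (Or.inr h)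
  have h := H842S.specStepR842 μr hμ n hw hβ.1.continuous hβ.2.1 d hd hF hF' hN hN' s
  rw [h]
  push_cast
  ring

end Fermat.Agent.LT.T7.SM640

end
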