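import Mathlib
import Fermat.Agent.LT.T7.SM640.StepMDatSpec

/-!
# Row LT, tower T7, node T7.L2Q.1.H2a.A.0b.M `BQ87.StepMDatQC87` (registry row 3188): CUT by
# helper640 -- the PROVED top

OFF-MAIN.  Complete proofs, nothing assumed.  ADDITIVE (new names only, suffix `640`).

    stepMDatQC_of640 : AbelUniqC640 → SegBumpC640 → SphLocTestC640 → SphLocAbelC640
        → SphLocActsC640 → SphTransSegC640 → StepTelC640 F → StepFtC640 F → StepUpOpC640 F
        → DnOpFormC640 F → BQ87.UpGoodQC87 F → T3.R.AbelRealC → H445.SphExLocC445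
        → BQ87.StepMDatQC87 F                                                   (VERBATIM)
-/

set_option autoImplicit false

open AutomorphicForm IsDedekindDomain NumberField MeasureTheory
open scoped ComplexConjugate

noncomputable section

namespace Fermat.Agent.LT.T7.SM640

open Fermat.Agent.LT Fermat.Agent.LT.H556 Fermat.Agent.LT.H556.A0 Fermat.Agent.LT.T7
  Fermat.Agent.LT.T7.H305 Fermat.Agent.LT.T7.L2Q Fermat.Agent.LT.T7.H893
  Fermat.Agent.LT.T7.H962 Fermat.Agent.LT.T7.H732 Fermat.Agent.LT.T7.MQ298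
  Fermat.Agent.LT.T7.CQ801 Fermat.Agent.LT.T7.PQ484 Fermat.Agent.LT.T7.BQ87

attribute [local instance] Fermat.Agent.LT.T5.instMeasurableSpaceG

variable {F : Type} [Field F] [NumberField F]

/-- The real components of the new data. -/
theorem fr_w0_640 (D : DatQ87 F) (d : ℝ) (y : ℝ → ℝ → GL (Fin 2) ℂ)
    (F0' F1' : Fin D.N → GL (Fin 2) ℝ → ℂ) :
    (stepDat640 D d y F0' F1').Fr QWt.w0 = F0' := rfl

theorem fr_w1_640 (D : DatQ87 F) (d : ℝ) (y : ℝ → ℝ → GL (Fin 2) ℂ)
    (F0' F1' : Fin D.N → GL (Fin 2) ℝ → ℂ) :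
    (stepDat640 D d y F0' F1').Fr QWt.w1 = F1' := rfl

/-- In data with `IsDatQ87` the coordinates downstairs are the halves of the coordinates
upstairs. -/
theorem beta_eq_half640 (hU : AbelUniqC640) {Φe : HeckeEigensystem F ℂ} {B : L2QBase962 F}
    {𝔫 : Ideal (𝓞 ℚ)} {c : ℂ} {T₀ : Finset (HeightOneSpectrum (𝓞 ℚ))}
    {n : HeightOneSpectrum (𝓞 F) → ℕ} {m : HeightOneSpectrum (𝓞 ℚ) → ℕ} {D : DatQ87 F}
    (hD : IsDatQ87 Φe B 𝔫 c T₀ n m D) (i : Fin D.N) (w : InfinitePlace F)
    (v : InfinitePlace ℚ) : D.β i v = halfQ801 c (D.β' i w) := by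
  obtain ⟨β'', -, h1, h2, -⟩ := (hD.loc i).2.2.2.2.2.2 w
  have e1 : β'' = D.β' i w := hU.1 _ _ _ h1 (hD.abel_up i w)
  have h3 : T3.R.HasAbelNR (D.F0 i) (D.β i v) := hD.abel_dn QWt.w0 i v
  rw [e1] at h2
  exact hU.2 _ _ _ h3 h2

/-- **THE TOP OF THE CUT of `StepMDatQC87`.** -/
theorem stepMDatQC_of640 (hU : AbelUniqC640) (hB : SegBumpC640) (hT : SphLocTestC640)
    (hA : SphLocAbelC640) (hAc : SphLocActsC640) (hSp : SphTransSegC640)
    (hTel : StepTelC640 F) (hFt : StepFtC640 F) (hUp : StepUpOpC640 F)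
    (hDn : DnOpFormC640 F) (hGood : UpGoodQC87 F) (hReal : T3.R.AbelRealC)
    (hEx : H445.SphExLocC445) : StepMDatQC87 F := by
  intro h3 hiq Φ hΦ hconst hek B hBase hram 𝔫 hlev T₀ n n₀ m hexp c hc D hD w d hd
  obtain ⟨y, hy⟩ := hEx d
  -- the real components of the new data
  have hbump : ∀ i : Fin D.N, T3.AS.IsSymBump (segDn640 d (D.β i Rat.infinitePlace)) :=
    fun i => (hB d hd _ (hD.symβ i Rat.infinitePlace)).2.1
  have hw0 : T3.R.IsWt 0 := Or.inl rfl
  have hw1 : T3.R.IsWt (-1) := Or.inr (Or.inr rfl)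
  choose F0' hF0t hF0a using fun i : Fin D.N => hReal 0 hw0 _ (hbump i)
  choose F1' hF1t hF1a using fun i : Fin D.N => hReal (-1) hw1 _ (hbump i)
  have hv : ∀ v : InfinitePlace ℚ, v = Rat.infinitePlace := fun v => Subsingleton.elim _ _
  -- the new data
  have hD' : IsDatQ87 Φ (toBase962_732 B) 𝔫 c T₀ n m (stepDat640 D d y F0' F1') := by
    have htel := hTel hiq Φ (toBase962_732 B) 𝔫 c T₀ n m D hD d hd y F0' F1'
    have hloc : ∀ (i : Fin D.N) (w' : InfinitePlace F),
        T3.AS.IsCplxTest (H445.sphMeanC445 y (D.Φ i w')) ∧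
          T3.AS.IsCplxSmooth (H445.sphMeanC445 y (D.Φ i w')) ∧
          T6.IsArchTestC (H445.sphMeanC445 y (D.Φ i w')) :=
      fun i w' => hT d y hy _ (hD.test_up i w') (hD.smooth_up i w')
    have habel : ∀ (t : QWt) (i : Fin D.N) (v : InfinitePlace ℚ),
        T3.R.HasAbelNR ((stepDat640 D d y F0' F1').Fr t i) (segDn640 d (D.β i v)) := by
      intro t i v
      rw [hv v]
      cases t
      · exact hF0a i
      · exact hF1a i
    refine
      { haar_c := hD.haar_c
        frame_up := hD.frame_up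
        frame_dn := hD.frame_dn
        totpos := hD.totpos
        out := hD.out
        good := hD.good
        under := hD.under
        κc_ne := hD.κc_ne
        symA' := hD.symA'
        symβ' := fun i w' => (hB d hd _ (hD.symβ' i w')).1
        sat_up := hD.sat_up
        test_up := fun i w' => (hloc i w').1
        smooth_up := fun i w' => (hloc i w').2.1
        abel_up := fun i w' => hA d hd y hy _ _ (hD.test_up i w') (hD.symβ' i w')
          (hD.abel_up i w')
        acts_up := ?_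
        symA := hD.symA
        symβ := fun i v => (hB d hd _ (hD.symβ i v)).2.1
        sat_dn := hD.sat_dn
        test_dn := ?_
        abel_dn := habel
        tel_up := htel.1
        tel_dn := htel.2
        ft_ne := ?_
        unit_rest := hD.unit_rest
        loc := ?_ }
    · -- acts_up
      intro i w'
      have h1 := hAc D.μc hD.haar_c d hd y hy (D.Φ i w') _ (hD.test_up i w') (hD.acts_up i w')
      have h2 := (hB d hd _ (hD.symβ' i w')).2.2.1
      show T3.AS.ActsBy D.μc (H445.sphMeanC445 y (D.Φ i w'))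
        (D.κc * ∫ x : ℝ × ℝ, segUp640 d (D.β' i w') x)
      rw [h2]
      have e : D.κc * (((4 * Real.pi * (d / Real.sinh d) : ℝ) : ℂ) * ∫ x : ℝ × ℝ, D.β' i w' x)
          = ((4 * Real.pi * (d / Real.sinh d) : ℝ) : ℂ) * (D.κc * ∫ x : ℝ × ℝ, D.β' i w' x) := by
        ring
      rw [e]
      exact h1
    · -- test_dn
      intro t i
      cases t
      · exact hF0t i
      · exact hF1t i
    · -- ft_ne
      intro z₁ z₂ hz₁ hz₂ hz
      have h1 := hFt hiq Φ (toBase962_732 B) 𝔫 c T₀ n m D hD d hd y F0' F1' z₁ z₂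
      have h2 := hD.ft_ne z₁ z₂ hz₁ hz₂ hz
      show T3.M.ftCoordM F D.P' (stepDat640 D d y F0' F1').crdUp z₁ z₂ ≠ 0
      rw [h1]
      refine mul_ne_zero ?_ h2
      have hs : 0 < Real.sinh d := Real.sinh_pos_iff.2 hd
      have : (0 : ℝ) < 4 * Real.pi * (d / Real.sinh d) := by positivity
      exact_mod_cast this.ne'
    · -- loc
      intro i
      obtain ⟨l1, l2, l3, l4⟩ := hD.loc i
      refine ⟨l1, l2, l3, fun w' => (hloc i w').2.2, hF0t i, hF1t i, fun w' => ?_⟩
      refine ⟨segUp640 d (D.β' i w'), (hB d hd _ (hD.symβ' i w')).1,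
        hA d hd y hy _ _ (hD.test_up i w') (hD.symβ' i w') (hD.abel_up i w'), ?_, ?_⟩
      · rw [(hB d hd _ (hD.symβ' i w')).2.2.2 c,
          ← beta_eq_half640 hU hD i w' Rat.infinitePlace]
        exact hF0a i
      · rw [(hB d hd _ (hD.symβ' i w')).2.2.2 c,
          ← beta_eq_half640 hU hD i w' Rat.infinitePlace]
        exact hF1a i
  refine ⟨stepDat640 D d y F0' F1', hD', ?_, ?_⟩
  · -- the operator upstairs
    intro χ C hχ x
    obtain ⟨u1, -⟩ := hGood h3 hiq Φ hΦ hconst hek B hBase hram 𝔫 hlev T₀ n n₀ m hexp c hc D hD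
    exact hUp h3 hiq Φ hΦ hconst hek B hBase hram 𝔫 hlev T₀ n n₀ m hexp c hc D hD u1 w d hd
      y hy F0' F1' χ C hχ x
  · -- the operator downstairs
    intro t χ cd C hχ hbc x
    obtain ⟨-, s, hs1, hs2⟩ := hbc
    obtain ⟨μr, Ξ, hμr, hΞ⟩ :=
      hDn h3 hiq Φ hΦ hconst hek B hBase hram 𝔫 hlev T₀ n n₀ m hexp c hc D hD t χ cd s hχ hs1
    have hwt : t.wt = 0 ∨ t.wt = -1 := by
      cases t
      · exact Or.inl rfl
      · exact Or.inr rfl
    have e1 := hΞ ((stepDat640 D d y F0' F1').Fr t) (fun i => hD'.test_dn t i) x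
    have e2 := hΞ (D.Fr t) (fun i => hD.test_dn t i) x
    have e3 : ∀ i : Fin D.N,
        T6.sphTransR μr t.wt ((stepDat640 D d y F0' F1').Fr t i) s
          = ((4 * Real.pi : ℝ) : ℂ) * T6.sphC (2 * s) (Real.cosh d)
            * T6.sphTransR μr t.wt (D.Fr t i) s := fun i =>
      hSp μr hμr t.wt hwt d hd (D.Fr t i) ((stepDat640 D d y F0' F1').Fr t i)
        (D.β i Rat.infinitePlace) (hD.symβ i Rat.infinitePlace) (hD.test_dn t i)
        (hD'.test_dn t i) (hD.abel_dn t i Rat.infinitePlace)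
        (hD'.abel_dn t i Rat.infinitePlace) s
    show T5.Rconv (toBase962_732 B).R.μ
        (fun g => ∑ i : Fin D.N, T3.R.pureFnR ℚ ratReal87 𝔫 D.P (D.f₀ i)
          (fun _ => (stepDat640 D d y F0' F1').Fr t i) g) χ x
      = C.m w d * T5.Rconv (toBase962_732 B).R.μ
        (fun g => ∑ i : Fin D.N, T3.R.pureFnR ℚ ratReal87 𝔫 D.P (D.f₀ i)
          (fun _ => D.Fr t i) g) χ x
    rw [e1, e2, hs2 w d hd, Finset.mul_sum]
    refine Finset.sum_congr rfl fun i _ => ?_
    rw [e3 i]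
    ring

end Fermat.Agent.LT.T7.SM640

end
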