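import Mathlib
import Fermat.Agent.LT.T7.SM640.StepMDatTop
import Fermat.Agent.LT.T7.SM640.LocalLeaves
import Fermat.Agent.LT.T7.H341.StepTel
import Fermat.Agent.LT.T7.H892.StepUpOp
import Fermat.Agent.LT.T7.H801.DnOpFormQ
import Fermat.Agent.LT.T7.H409.UpGoodQ
import Fermat.Agent.LT.T7.H510.SphEx
import Fermat.Agent.LT.T3.R.ClosedR

/-!
# Row LT, tower T7, node T7.L2Q.1.H2a.A.0b.M `BQ87.StepMDatQC87` (registry row 3188):
# CLOSED, UNCONDITIONAL (helper640, owner of the cut)

OFF-MAIN.  Complete proofs, nothing assumed.  ADDITIVE (one new theorem, namespace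
`Fermat.Agent.LT.T7.SM640`).

    stepMDatQC_closed640 (F) : BQ87.StepMDatQC87 F

= the proved top `stepMDatQC_of640` (`SM640/StepMDatTop.lean`) with ALL leaves plugged in ONE
import closure:

* SM.0 -- SM.5 (local): `SM640/LocalLeaves.lean` (helper640, on helper698 `SphDat` / `SphAbel`
  and helper842 `SpecStepR`);
* SM.6 `StepTelC640 F`, SM.7 `StepFtC640 F`: helper341 `T7/H341/StepTel.lean`;
* SM.8 `StepUpOpC640 F`: helper892 `T7/H892/StepUpOp.lean`;
* SM.9 `DnOpFormC640 F`: helper801 `T7/H801/DnOpFormQ.lean`;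
* `BQ87.UpGoodQC87 F`: helper409 `T7/H409/UpGoodQ.lean`;
* `T3.R.AbelRealC`: station T3.18R, `T3/R/ClosedR.lean`;
* `H445.SphExLocC445`: helper510 `T7/H510/SphEx.lean`.
-/

set_option autoImplicit false

noncomputable section

namespace Fermat.Agent.LT.T7.SM640

open Fermat.Agent.LT Fermat.Agent.LT.T7

/-- **NODE `BQ87.StepMDatQC87` (the step `M_{w,d}` ON THE DATA over `ℚ`): CLOSED.** -/
theorem stepMDatQC_closed640 (F : Type) [Field F] [NumberField F] : BQ87.StepMDatQC87 F :=
  stepMDatQC_of640 (F := F) abelUniqC640 segBumpC640 sphLocTestC640 sphLocAbelC640 sphLocActsC640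
    sphTransSegC640 (SMT341.stepTelC_closed341 F) (SMT341.stepFtC_closed341 F)
    (H892.stepUpOpC892 F) (DO801.dnOpFormC801 F) (H409.upGoodQC409 F) T3.R.abelRealC_c
    H510.sphExLocC_h510

end Fermat.Agent.LT.T7.SM640

end
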